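import Fermat.Agent.S48.ModL.HP.Scal
import Fermat.Agent.RED.ES.Formal

/-!
# S48 / MODL / HP / Trans  (WP [HP-TRANS]): the translations `τ ↦ τ + x` (`x` real) on `HolPer 1`, `MerPer 1`, `Mer`

Definitions complete (helper72).  All proofs are copies of `shift_mem_HolPer`, `shiftHolPer_injective`,
`qParam_vadd_one`, `qExpansion_shift_coeff`, `qExpLaurent_shift`, `toLaurent_shiftMer`, `toMer_shiftMer` in
`Fermat/Agent/S24/HolPerMore.lean` (there: period `h`, translation by `1`; here: period `1`, translation by `x`,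
`𝕢 1 (x + τ) = e^{2πi x} 𝕢 1 τ`).
-/

set_option autoImplicit false

open UpperHalfPlane hiding I
open Function ModularCurve CongruenceSubgroup ModularForm
open scoped Manifold MatrixGroups Real
open Fermat.Agent.S24 Fermat.Agent.GAL.HeckeEquiv Fermat.Agent.RED.ES

namespace Fermat.Agent.S48.ModL.HP

noncomputable section

local notation "𝕢" => Periodic.qParam

/-- the matrix `[[1,x],[0,1]]`. -/
def trMat (x : ℝ) : GL (Fin 2) ℝ := upperTriangularGL 1 x 1 (by simp)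

theorem det_trMat_pos (x : ℝ) : 0 < (trMat x).det.val := by
  have : (trMat x).det.val = 1 := by
    rw [Matrix.GeneralLinearGroup.val_det_apply, trMat, val_upperTriangularGL,
      Matrix.det_fin_two_of]
    ring
  rw [this]; exact one_pos

theorem trMat_smul (x : ℝ) (τ : ℍ) : trMat x • τ = x +ᵥ τ := by
  apply UpperHalfPlane.ext
  rw [UpperHalfPlane.coe_smul_of_det_pos (det_trMat_pos x), coe_vadd]
  simp [UpperHalfPlane.num, UpperHalfPlane.denom, trMat]
  ring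

theorem compGL_trMat_apply (x : ℝ) (f : Hol) (τ : ℍ) :
    (compGL (trMat x) (det_trMat_pos x) f : ℍ → ℂ) τ = (f : ℍ → ℂ) (x +ᵥ τ) := by
  rw [compGL_apply, trMat_smul]

theorem tr_mem_HolPer (x : ℝ) {f : ℍ → ℂ} (hf : f ∈ HolPer 1) :
    (fun τ => f (x +ᵥ τ)) ∈ HolPer 1 := by
  rw [mem_HolPer_iff] at hf ⊢
  obtain ⟨h1, h2, h3⟩ := hf
  refine ⟨?_, ?_, ?_⟩
  · have := (compGL (trMat x) (det_trMat_pos x) ⟨f, h1⟩).2
    have h4 : ((compGL (trMat x) (det_trMat_pos x) ⟨f, h1⟩ : Hol) : ℍ → ℂ)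
        = fun τ => f (x +ᵥ τ) := by
      funext τ
      rw [compGL_trMat_apply]
    rw [← h4]; exact this
  · intro τ
    rw [vadd_comm, h2]
  · rw [isBoundedAtImInfty_iff] at h3 ⊢
    obtain ⟨M, A, hMA⟩ := h3
    exact ⟨M, A, fun z hz => hMA _ (by rwa [vadd_im])⟩

/-- Translation by `x` on `HolPer 1`. -/
def trHolPer (x : ℝ) : HolPer 1 →ₐ[ℂ] HolPer 1 where
  toFun f := ⟨fun τ => (f : ℍ → ℂ) (x +ᵥ τ), tr_mem_HolPer x f.2⟩
  map_one' := rfl
  map_mul' _ _ := rfl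
  map_zero' := rfl
  map_add' _ _ := rfl
  commutes' _ := rfl

@[simp] theorem trHolPer_apply (x : ℝ) (f : HolPer 1) (τ : ℍ) :
    (trHolPer x f : ℍ → ℂ) τ = (f : ℍ → ℂ) (x +ᵥ τ) := rfl

theorem trHolPer_injective (x : ℝ) : Injective (trHolPer x) := by
  intro a b hab
  apply Subtype.ext
  funext τ
  have := congrFun (congrArg Subtype.val hab) ((-x : ℝ) +ᵥ τ)
  simpa [vadd_vadd] using this

/-- Translation by `x` on `MerPer 1`. -/
def trPer (x : ℝ) : MerPer 1 →+* MerPer 1 :=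
  IsFractionRing.map (A := HolPer 1) (B := HolPer 1) (K := MerPer 1) (L := MerPer 1)
    (j := (trHolPer x).toRingHom) (trHolPer_injective x)

theorem trPer_algebraMap (x : ℝ) (f : HolPer 1) :
    trPer x (algebraMap (HolPer 1) (MerPer 1) f) =
      algebraMap (HolPer 1) (MerPer 1) (trHolPer x f) :=
  IsLocalization.map_eq (S := MerPer 1) (Q := MerPer 1) (g := (trHolPer x).toRingHom)
    (nonZeroDivisors_le_comap_nonZeroDivisors_of_injective _ (trHolPer_injective x)) f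

/-- `e^{2πi x}` as a unit. -/
def expU (x : ℝ) : ℂˣ := Units.mk0 (Complex.exp (2 * π * Complex.I * x)) (Complex.exp_ne_zero _)

@[simp] theorem coe_expU (x : ℝ) : ((expU x : ℂˣ) : ℂ) = Complex.exp (2 * π * Complex.I * x) := rfl

theorem qParam_tr (x : ℝ) (τ : ℍ) :
    𝕢 ((1 : ℕ) : ℝ) ((x +ᵥ τ : ℍ) : ℂ) = (expU x : ℂ) * 𝕢 ((1 : ℕ) : ℝ) (τ : ℂ) := by
  rw [coe_expU, Periodic.qParam, Periodic.qParam, ← Complex.exp_add, coe_vadd]
  congr 1
  push_cast
  ring

theorem qExpansion_tr_coeff (x : ℝ) (f : HolPer 1) (n : ℕ) :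
    (qExpansion ((1 : ℕ) : ℝ) (trHolPer x f : ℍ → ℂ)).coeff n =
      (expU x : ℂ) ^ n * (qExpansion ((1 : ℕ) : ℝ) (f : ℍ → ℂ)).coeff n := by
  refine (qExpansion_coeff_unique_fun (HolPer.pos 1) (HolPer.analyticAt 1 (trHolPer x f))
    (c := fun n => (expU x : ℂ) ^ n * (qExpansion ((1 : ℕ) : ℝ) (f : ℍ → ℂ)).coeff n) ?_ n).symm
  intro τ
  have := hasSum_qExpansion (HolPer.pos 1) f.2.2.1 f.2.1 f.2.2.2 (x +ᵥ τ)
  rw [qParam_tr] at this
  have h2 : (fun m : ℕ => ((expU x : ℂ) ^ m * (qExpansion ((1 : ℕ) : ℝ) (f : ℍ → ℂ)).coeff m) •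
      𝕢 ((1 : ℕ) : ℝ) (τ : ℂ) ^ m) = fun m : ℕ => (qExpansion ((1 : ℕ) : ℝ) (f : ℍ → ℂ)).coeff m •
      ((expU x : ℂ) * 𝕢 ((1 : ℕ) : ℝ) (τ : ℂ)) ^ m := by
    funext m
    simp only [smul_eq_mul, mul_pow]
    ring
  rw [h2]
  exact this

theorem qExpLaurent_tr (x : ℝ) (f : HolPer 1) :
    qExpLaurent 1 (trHolPer x f) = rotR (expU x) (qExpLaurent 1 f) := by
  ext k
  rw [rotR_coeff]
  show (HahnSeries.ofPowerSeries ℤ ℂ (qExpansion ((1 : ℕ) : ℝ) (trHolPer x f : ℍ → ℂ))).coeff k =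
    _ * (HahnSeries.ofPowerSeries ℤ ℂ (qExpansion ((1 : ℕ) : ℝ) (f : ℍ → ℂ))).coeff k
  rcases le_or_gt 0 k with hk | hk
  · lift k to ℕ using hk
    rw [HahnSeries.ofPowerSeries_apply_coeff, HahnSeries.ofPowerSeries_apply_coeff,
      qExpansion_tr_coeff]
    simp
  · rw [ofPowerSeries_coeff_neg _ hk, ofPowerSeries_coeff_neg _ hk, mul_zero]

theorem toLaurent_trPer (x : ℝ) (u : MerPer 1) :
    toLaurent 1 (trPer x u) = rotR (expU x) (toLaurent 1 u) := by
  obtain ⟨a, b, -, rfl⟩ := IsFractionRing.div_surjective (A := HolPer 1) u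
  rw [map_div₀, map_div₀, map_div₀, trPer_algebraMap, trPer_algebraMap, map_div₀]
  have key : ∀ f : HolPer 1, toLaurent 1 (algebraMap (HolPer 1) (MerPer 1) f) = qExpLaurent 1 f :=
    fun f => toLaurent_algebraMap 1 f
  rw [key, key, key, key, qExpLaurent_tr, qExpLaurent_tr]

theorem inclHol_trHolPer (x : ℝ) (f : HolPer 1) :
    inclHol 1 (trHolPer x f) = compGL (trMat x) (det_trMat_pos x) (inclHol 1 f) := by
  apply Subtype.ext
  funext τ
  rw [compGL_trMat_apply]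
  rfl

theorem toMer_trPer (x : ℝ) (u : MerPer 1) :
    toMer 1 (trPer x u) = merGL (trMat x) (det_trMat_pos x) (toMer 1 u) := by
  obtain ⟨a, b, -, rfl⟩ := IsFractionRing.div_surjective (A := HolPer 1) u
  rw [map_div₀, map_div₀, map_div₀, map_div₀, trPer_algebraMap, trPer_algebraMap,
    toMer_algebraMap, toMer_algebraMap, toMer_algebraMap, toMer_algebraMap, merGL_algebraMap,
    merGL_algebraMap, inclHol_trHolPer, inclHol_trHolPer]

/-- `merGL` only depends on the action on `ℍ` -/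
theorem merGL_eq_of_smul_eq {g g' : GL (Fin 2) ℝ} (hg : 0 < g.det.val) (hg' : 0 < g'.det.val)
    (h : ∀ τ : ℍ, g • τ = g' • τ) (u : Mer) : merGL g hg u = merGL g' hg' u := by
  obtain ⟨a, b, -, rfl⟩ := IsFractionRing.div_surjective (A := Hol) u
  simp only [map_div₀, merGL_algebraMap]
  congr 2 <;>
  · apply Subtype.ext
    funext z
    rw [compGL_apply, compGL_apply, h]

/-- `u ((p τ + b) / p) = u (τ + b / p)`. -/
theorem scalMer_merGL_heckeMatrix (p : ℕ) [NeZero p] (b : ℕ) (u : Mer) :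
    scalMer p (merGL (heckeMatrix p b) (det_heckeMatrix_pos p b) u) =
      merGL (trMat ((b : ℝ) / p)) (det_trMat_pos _) u := by
  have hp : (p : ℝ) ≠ 0 := Nat.cast_ne_zero.2 (NeZero.ne p)
  have hpc : (p : ℂ) ≠ 0 := Nat.cast_ne_zero.2 (NeZero.ne p)
  rw [scalMer, merGL_merGL]
  apply merGL_eq_of_smul_eq
  intro τ
  rw [trMat_smul]
  apply UpperHalfPlane.ext
  rw [UpperHalfPlane.coe_smul_of_det_pos
    (det_mul_pos (det_heckeMatrix_pos p b) (det_heckeDiagMatrix_pos p)), coe_vadd]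
  simp [UpperHalfPlane.num, UpperHalfPlane.denom, val_heckeMatrix (NeZero.ne p),
    val_heckeDiagMatrix (NeZero.ne p), Matrix.mul_apply, Fin.sum_univ_two]
  field_simp
  ring

end

end Fermat.Agent.S48.ModL.HP
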