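import Fermat.Agent.S48.ModL.HP.Trans
import Fermat.Agent.S48.ModL.CongrAbs
import Fermat.Agent.GAL.HeckeGalois

/-!
# S48 / MODL / HP / TNorm  (WP [HP-TNORM]): the `t`-expansion norm formula from the analytic one (no swap)

`tnorm_of_analytic`: write `θ = toMer 1 ∘ θPer` (`Lvl.thetaK_apply`).  Apply `scalMer p` to `h`:
`toMer 1 (scalPer p (θPer N)) = toMer 1 (scalPer p (scalPer p (θPer y)) * ∏_b trPer (b/p) (θPer y'))`
(`toMer_scalPer`, `scalMer_merGL_heckeMatrix`, `toMer_trPer`, `map_mul`, `map_prod`).  `toMer_injective 1`, then `toLaurent 1`: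
`toLaurent_scalPer`, `toLaurent_trPer`, `Lvl.toLaurent_thetaPer`:
`qExpand ℂ p (coeffMap ι N) = qExpand ℂ p (qExpand ℂ p (coeffMap ι y)) * ∏_b rotR (expU (b/p)) (coeffMap ι y')`.
Finally `GAL.coeffMap_qExpand`, `RED.ES.coeffMap_rotR` (`Units.map ι (ζ ^ b) = expU (b / p)` by `hζ`), `map_mul`, `map_prod` and
the injectivity of `coeffMap ι` (`S24.coeffMap_injective`).
-/

set_option autoImplicit false

open UpperHalfPlane hiding I
open Function ModularCurve CongruenceSubgroup ModularForm AlgebraicCurve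
open scoped Manifold MatrixGroups Real
open Fermat.Agent.S24 Fermat.Agent.GAL.HeckeEquiv Fermat.Agent.RED.ES Fermat.Agent.RED.Gauss
  Fermat.Agent.RED.TorsES

namespace Fermat.Agent.S48.ModL.HP

theorem units_map_iotaK_pow (p : ℕ) [NeZero p] (ζ : Kbˣ)
    (hζ : iotaK (ζ : Kb) = Complex.exp (2 * π * Complex.I / p)) (b : ℕ) :
    Units.map ((iotaK.toRingHom : Kb →+* ℂ) : Kb →* ℂ) (ζ ^ b) = expU ((b : ℝ) / p) := by
  apply Units.ext
  rw [map_pow, Units.val_pow_eq_pow_val, coe_expU]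
  show (iotaK (ζ : Kb)) ^ b = _
  rw [hζ, ← Complex.exp_nat_mul]
  congr 1
  push_cast
  ring

theorem tnorm_of_analytic (L : Lvl) (p : ℕ) [NeZero p] (N y y' : L.FK Kb) (ζ : Kbˣ)
    (hζ : iotaK (ζ : Kb) = Complex.exp (2 * π * Complex.I / p))
    (h : L.thetaK iotaK.toRingHom N = scalMer p (L.thetaK iotaK.toRingHom y) *
      ∏ b ∈ Finset.range p,
        merGL (heckeMatrix p b) (det_heckeMatrix_pos p b) (L.thetaK iotaK.toRingHom y')) :
    qExpand Kb p (N : LaurentSeries Kb) =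
      qExpand Kb p (qExpand Kb p (y : LaurentSeries Kb)) *
        ∏ b ∈ Finset.range p, rotR (ζ ^ b) (y' : LaurentSeries Kb) := by
  have h1 := congrArg (scalMer p) h
  rw [map_mul, map_prod] at h1
  simp only [scalMer_merGL_heckeMatrix, Lvl.thetaK_apply, ← toMer_scalPer, ← toMer_trPer] at h1
  rw [← map_prod, ← map_mul] at h1
  have h2 := congrArg (toLaurent 1) (toMer_injective 1 h1)
  rw [map_mul, map_prod] at h2
  simp only [toLaurent_scalPer, toLaurent_trPer, Lvl.toLaurent_thetaPer] at h2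
  apply S24.coeffMap_injective iotaK.toRingHom iotaK.toRingHom.injective
  rw [map_mul, map_prod, Fermat.Agent.GAL.HeckeGalois.coeffMap_qExpand, Fermat.Agent.GAL.HeckeGalois.coeffMap_qExpand, Fermat.Agent.GAL.HeckeGalois.coeffMap_qExpand, h2]
  congr 1
  refine Finset.prod_congr rfl fun b _ => ?_
  rw [coeffMap_rotR, units_map_iotaK_pow p ζ hζ b]

theorem exists_iotaK_eq_aux (x : ℂ) (hx : IsAlgebraic ℚ x) : ∃ a : Kb, iotaK a = x := by
  have h1 : IsAlgClosed iotaK.fieldRange :=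
    IsAlgClosed.of_ringEquiv Kb iotaK.fieldRange (AlgEquiv.ofInjectiveField iotaK).toRingEquiv
  have h2 : IsAlgebraic iotaK.fieldRange x := hx.tower_top _
  have h3 : IsIntegral iotaK.fieldRange x := h2.isIntegral
  obtain ⟨y, hy⟩ := minpoly.mem_range_of_degree_eq_one iotaK.fieldRange x
    (IsAlgClosed.degree_eq_one_of_irreducible _ (minpoly.irreducible h3))
  obtain ⟨a, ha⟩ := y.2
  exact ⟨a, by rw [← hy]; exact ha⟩

theorem exists_zeta_unit (p : ℕ) [Fact p.Prime] (A : ValuationSubring Kb) {k : Type*} [Field k]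
    [CharP k p] (π' : A →+* k) :
    ∃ ζ : Aˣ, π' ζ = 1 ∧
      iotaK (((ζ : A) : Kb)) = Complex.exp (2 * π * Complex.I / p) := by
  have hp : p ≠ 0 := (Fact.out : p.Prime).ne_zero
  have hprim : IsPrimitiveRoot (Complex.exp (2 * π * Complex.I / p)) p :=
    Complex.isPrimitiveRoot_exp p hp
  have hint : IsIntegral ℤ (Complex.exp (2 * π * Complex.I / p)) :=
    hprim.isIntegral (Nat.pos_of_ne_zero hp)
  obtain ⟨w, hw⟩ := exists_iotaK_eq_aux _ ((hint.tower_top (A := ℚ)).isAlgebraic)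
  have hwp : w ^ p = 1 := by
    apply iotaK.toRingHom.injective
    show iotaK (w ^ p) = iotaK 1
    rw [map_pow, hw, hprim.pow_eq_one, map_one]
  have hmem : ∀ z : Kb, z ^ p = 1 → z ∈ A := by
    intro z hz
    rw [← A.valuation_le_one_iff]
    by_contra hlt
    rw [not_le] at hlt
    have : 1 < A.valuation z ^ p := one_lt_pow₀ hlt hp
    rw [← map_pow, hz, map_one] at this
    exact lt_irrefl _ this
  have hw0 : w ≠ 0 := by
    rintro rfl
    rw [zero_pow hp] at hwp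
    exact zero_ne_one hwp
  have hwi : w⁻¹ ^ p = 1 := by rw [inv_pow, hwp, inv_one]
  let ζ : Aˣ := ⟨⟨w, hmem w hwp⟩, ⟨w⁻¹, hmem _ hwi⟩, Subtype.ext (mul_inv_cancel₀ hw0),
    Subtype.ext (inv_mul_cancel₀ hw0)⟩
  refine ⟨ζ, ?_, hw⟩
  have h1 : (π' (ζ : A)) ^ p = 1 := by
    rw [← map_pow]
    have : ((ζ : A)) ^ p = 1 := Subtype.ext hwp
    rw [this, map_one]
  have h2 : (π' (ζ : A) - 1) ^ p = 0 := by
    rw [sub_pow_char, h1, one_pow, sub_self]
  exact sub_eq_zero.1 (pow_eq_zero_iff hp |>.1 h2)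

end Fermat.Agent.S48.ModL.HP
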