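import Fermat.Agent.S48.ModL.HP.WithP
import Fermat.Agent.S48.ModL.Y.Inst
import Fermat.Agent.S48.Forms.Level

/-!
# S48 / MODL / HP / ConjY  (WP [HP-CONJY]): `diag(p,1)` conjugates `GY M ∩ Γ₀(p)` into `GY M`

For `g = [[a,b],[c,d]] ∈ GY M ∩ Γ₀(p)`: `g' = [[a, p b],[c / p, d]]`; `M² ∣ c`, `p ∣ c`, `p ∤ M` ⟹ `M² ∣ c / p`; same `d`.
Pattern for the matrix identity: `heckeDiagMatrix_mul_of_eq'` in
`Fermat/Prelude/Sol/S_ModularForm_heckeT_slash_eq_self_of_mem_Gamma0.lean`, `Forms/Level.heckeDiag_mul_Gamma0_mul`.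
-/

set_option autoImplicit false

open CongruenceSubgroup ModularForm
open scoped MatrixGroups
open Matrix.SpecialLinearGroup (mapGL)

namespace Fermat.Agent.S48.ModL.HP

theorem pconj_lvlY (M : ℕ) [NeZero M] (hM : 2 < M) {p : ℕ} (hp : p.Prime) (hpM : ¬ p ∣ M) :
    PConj (Y.lvlY M hM) p := by
  refine ⟨fun g hg hgp => ?_⟩
  obtain ⟨hg0, hd⟩ := mem_GY.1 hg
  have hmem : g ∈ Gamma0 (M ^ 2 * p) := by
    rw [Gamma0_mem, ZMod.intCast_zmod_eq_zero_iff_dvd] at hg0 hgp ⊢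
    have hcop : IsCoprime ((M ^ 2 : ℕ) : ℤ) (p : ℤ) := by
      rw [Nat.isCoprime_iff_coprime]
      exact Nat.Coprime.pow_left 2 ((Nat.Prime.coprime_iff_not_dvd hp).2 hpM).symm
    have := hcop.mul_dvd hg0 hgp
    exact_mod_cast this
  obtain ⟨g', hg', h11, hc⟩ := heckeDiag_mul_Gamma0_mul (M ^ 2) p hp.pos g hmem
  exact ⟨g', mem_GY.2 ⟨hg', by rw [h11]; exact hd⟩, hc⟩

end Fermat.Agent.S48.ModL.HP
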