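import Fermat.Agent.S48.ModL.HP.Norm
import Fermat.Agent.GAL.HeckeEquiv.Kummer

/-!
# S48 / MODL / HP, WP [HP-KUM]: Kummer classes, the raw Hecke operator and diamonds (abstract)

* `IsKummer.heckeP` : port of `GAL/Sup/K3.lean` `IsKummer.hecke`:
  `x = [D]`, `m D = div u`, `θ u = h ^ m`; then `P.hecke x = [α_* β^* D]` (`rfl`, as in `K3.lean`:
  `Pic0.degZeroCorrespondence`), `m α_* β^* D = div u'` with `u' = normAlong α (β u)`
  (`GAL.HeckeEquiv.ord_norm_eq_mul_correspondence`, `norm_along_ne_zero`; `normAlong` unfolds to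
  `Algebra.norm`), `θ u' = ∏_q actMer q.out (merGL diag(p) (θ u)) = (P.heckeProd h) ^ m`
  (`HPair.thetaK_norm`, `HPair.thetaK_betaK`, `map_pow`, `Finset.prod_pow`).
* `IsKummer.diamond` : `δ • [D] = [δ • D]` (`SemilinearAut.pic0_smul_mk`), `m (δ • D) = div (δ u)`
  (`SemilinearAut.ord_smul`, `SemilinearAut.divisor_smul_apply`; see `RED.TorsES.IsDiv.smul`),
  `θ (δ u) = actMer s (θ u) = (actMer s h) ^ m`, and for `g ∈ G`:
  `actMer g (actMer s h) = actMer s (actMer (s⁻¹ g s) h) = χ (s⁻¹ g s) • actMer s h`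
  (`actMer` is a monoid hom : `map_mul`, `AlgEquiv.mul_apply`).
* `diamond_comm` : both sides are pairs of ring automorphisms (`Subtype.ext`, `Prod.ext`); on the
  function field use `Lvl.ringHom_ext_fk`; `arithmeticGalois` fixes `genK i`
  (`coe_arithmeticGalois_smul`, `Lvl.coeffMap_coeffEmb`-like: `coeffMap σ (coeffEmb Kb x) = coeffEmb Kb x`).
-/

set_option autoImplicit false
set_option linter.style.haveILetI false
set_option linter.unusedSectionVars false

open UpperHalfPlane hiding I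
open Function ModularCurve CongruenceSubgroup ModularForm AlgebraicCurve
open scoped Manifold MatrixGroups
open Fermat.Agent.S24 Fermat.Agent.GAL Fermat.Agent.GAL.HeckeEquiv Fermat.Agent.RED.TorsES

namespace Fermat.Agent.S48.ModL

noncomputable section

namespace HPair

variable {L : Lvl} {p : ℕ} [NeZero p] (P : HPair L p)

/-- `h' = ∏_q (h ∘ diag(p,1)) ∘ q⁻¹`. -/
def heckeProd (h : Mer) : Mer :=
  ∏ q : P.Q, actMer (q.out : SL(2, ℤ))
    (merGL (heckeDiagMatrix p) (det_heckeDiagMatrix_pos p) h)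

end HPair

/-- **(K3) for the raw Hecke operator, abstract form.** -/
theorem IsKummer.heckeP {L : Lvl} {p : ℕ} [NeZero p] (P : HPair L p) {m : ℕ}
    {χ χ' : L.G →* ℂˣ} {x : L.Jac} (h : IsKummer L m χ x)
    (ht : ∀ f : Mer, HasChar L χ f → HasChar L χ' (P.heckeProd f)) :
    IsKummer L m χ' (P.hecke x) := by
  obtain ⟨D, u, h, hu, hD, hθ, hχ, rfl⟩ := h
  refine ⟨Pic0.degZeroCorrespondence (P.betaK Kb) (P.alphaK Kb) P.integral_betaK P.integral_alphaK
      P.fundamentalIdentity_betaK D, normAlong (P.alphaK Kb) (P.betaK Kb u), P.heckeProd h,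
    ?_, ?_, ?_, ht h hχ, rfl⟩
  · exact norm_along_ne_zero _ _ P.finiteAlong_alphaK hu
  · intro v
    exact ord_norm_eq_mul_correspondence _ _ P.integral_betaK P.integral_alphaK
      P.finiteAlong_alphaK P.normFormula_alphaK (m : ℤ) D u hu hD v
  · rw [P.thetaK_norm, P.thetaK_betaK, hθ, HPair.heckeProd, ← Finset.prod_pow]
    exact Finset.prod_congr rfl fun q _ => by rw [map_pow, map_pow]

/-- **(K3) for a diamond operator, abstract form.** -/
theorem IsKummer.diamond {L : Lvl} {m : ℕ} (δ : L.FK Kb ≃ₐ[Kb] L.FK Kb) (s : SL(2, ℤ))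
    (hδ : ∀ u : L.FK Kb, L.thetaK iotaK.toRingHom (δ u) = actMer s (L.thetaK iotaK.toRingHom u))
    {χ χ' : L.G →* ℂˣ} {x : L.Jac} (h : IsKummer L m χ x)
    (hc : ∀ γ : L.G, ∃ γ' : L.G, (γ' : SL(2, ℤ)) = s⁻¹ * γ * s ∧ χ' γ = χ γ') :
    IsKummer L m χ' (SemilinearAut.ofAlgAut δ • x) := by
  obtain ⟨D, u, h, hu, hD, hθ, hχ, rfl⟩ := h
  refine ⟨SemilinearAut.degZeroSMulHom (SemilinearAut.ofAlgAut δ) D, δ u, actMer s h,
    by simpa using hu, ?_, ?_, ?_, SemilinearAut.pic0_smul_mk _ _⟩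
  · intro v
    rw [SemilinearAut.coe_degZeroSMulHom, SemilinearAut.divisor_smul_apply, ← hD,
      ← SemilinearAut.ord_smul (SemilinearAut.ofAlgAut δ) ((SemilinearAut.ofAlgAut δ)⁻¹ • v) u,
      smul_inv_smul, SemilinearAut.ofAlgAut_smul]
  · rw [hδ, hθ, map_pow]
  · intro γ
    obtain ⟨γ', e, hc'⟩ := hc γ
    have h1 : (γ : SL(2, ℤ)) * s = s * γ' := by rw [e]; group
    rw [← AlgEquiv.mul_apply, ← map_mul, h1, map_mul, AlgEquiv.mul_apply, hχ γ', map_mul,
      AlgEquiv.commutes, hc']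

/-- a diamond operator permuting the generators commutes with Galois. -/
theorem diamond_comm {L : Lvl} (δ : L.FK Kb ≃ₐ[Kb] L.FK Kb) (π : L.ι → L.ι)
    (hδ : ∀ i, δ (L.genK Kb i) = L.genK Kb (π i)) (σ : Kb ≃ₐ[ℚ] Kb) :
    SemilinearAut.ofAlgAut δ * arithmeticGalois L.F₀ σ =
      arithmeticGalois L.F₀ σ * SemilinearAut.ofAlgAut δ := by
  refine Subtype.ext (Prod.ext ?_ ?_)
  · have key : ((δ : L.FK Kb ≃+* L.FK Kb) : L.FK Kb →+* L.FK Kb).comp
        ((arithmeticRingAut L.F₀ σ : L.FK Kb ≃+* L.FK Kb) : L.FK Kb →+* L.FK Kb) =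
        ((arithmeticRingAut L.F₀ σ : L.FK Kb ≃+* L.FK Kb) : L.FK Kb →+* L.FK Kb).comp
          ((δ : L.FK Kb ≃+* L.FK Kb) : L.FK Kb →+* L.FK Kb) := by
      have hg : ∀ i, arithmeticRingAut L.F₀ σ (L.genK Kb i) = L.genK Kb i := fun i =>
        Subtype.ext (by
          rw [coe_arithmeticRingAut_apply, Lvl.coe_genK, ModularCurve.coeffMap_coeffEmb])
      apply L.ringHom_ext_fk
      · intro a
        simp only [RingHom.comp_apply, RingHom.coe_coe, AlgEquiv.coe_ringEquiv,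
          arithmeticRingAut_algebraMap, AlgEquiv.commutes]
      · intro i
        simp only [RingHom.comp_apply, RingHom.coe_coe, AlgEquiv.coe_ringEquiv, hg, hδ]
    exact RingEquiv.ext fun x => congrArg (fun φ : L.FK Kb →+* L.FK Kb => φ x) key
  · exact RingEquiv.ext fun x => rfl

/-- the diamond operator on the Jacobian. -/
def diamJ {L : Lvl} (δ : L.FK Kb ≃ₐ[Kb] L.FK Kb) : L.Jac →+ L.Jac :=
  DistribSMul.toAddMonoidHom L.Jac (SemilinearAut.ofAlgAut δ)

theorem diamJ_apply {L : Lvl} (δ : L.FK Kb ≃ₐ[Kb] L.FK Kb) (x : L.Jac) :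
    diamJ δ x = SemilinearAut.ofAlgAut δ • x := rfl

theorem diamJ_smul {L : Lvl} (δ : L.FK Kb ≃ₐ[Kb] L.FK Kb) (π : L.ι → L.ι)
    (hδ : ∀ i, δ (L.genK Kb i) = L.genK Kb (π i)) (σ : Kb ≃ₐ[ℚ] Kb) (x : L.Jac) :
    σ • diamJ δ x = diamJ δ (σ • x) := by
  rw [diamJ_apply, diamJ_apply, galois_smul_pic0_def, galois_smul_pic0_def, ← mul_smul,
    ← mul_smul, diamond_comm δ π hδ σ]

end

end Fermat.Agent.S48.ModL
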