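import Fermat.Agent.S48.ModL.HP.Pair
import Fermat.Agent.RED.TorsESAbs

/-!
# S48 / MODL / HP, WP [HP-NORM]: the norm along `α` is the product over the cosets

Port of `GAL/HeckeEquiv/NormProd.lean` (141 lines), with the dictionary
`FN N ↦ L.FK Kb`, `FN (N * ℓ) ↦ P.L'.FK Kb`, `heckeAlphaBar ↦ P.alphaK Kb`,
`ThetaMer N ↦ L.thetaK iotaK.toRingHom`, `XN N ↦ L.X`, `sigma0 ↦ Lvl.sigma0K`,
`sigma_injective ↦ Lvl.sigmaK_injective`, `sigma_mk ↦ Lvl.sigmaK_mk`,
`relfinrank_jField` from `Lvl.finrank_jK` (note `P.alphaK Kb (L.jK Kb)` and `P.L'.jK Kb` have the same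
underlying series `jqModC Kb` : `Lvl.coe_jK`), `actMer_ThetaMer ↦ Lvl.actMer_thetaK`,
`ThetaMer_alpha ↦ HPair.thetaK_alphaK`, `card_QN_mul ↦ Subgroup.relIndex_mul_index P.G'_le`.
-/

set_option autoImplicit false
set_option linter.style.haveILetI false
set_option linter.unusedSectionVars false
set_option synthInstance.maxHeartbeats 400000

open UpperHalfPlane hiding I
open Function ModularCurve CongruenceSubgroup ModularForm AlgebraicCurve
open scoped Manifold MatrixGroups
open Fermat.Agent.S24 Fermat.Agent.GAL Fermat.Agent.GAL.HeckeEquiv Fermat.Agent.RED.TorsES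

namespace Fermat.Agent.S48.ModL

noncomputable section

open IntermediateField in
/-- `Kb(j)` inside `Kb((q))`. -/
def jFieldK : IntermediateField Kb (LaurentSeries Kb) := Kb⟮jqModC Kb⟯

open IntermediateField in
theorem Lvl.relfinrank_jFieldK (L : Lvl) : relfinrank jFieldK (L.FKf Kb) = Nat.card L.X := by
  have h1 := L.finrank_jK iotaK.toRingHom
  rw [← h1, ← relfinrank_top_right, ← relfinrank_map_map _ _ (L.FKf Kb).val]
  congr 1
  · rw [jFieldK, IntermediateField.adjoin_map, Set.image_singleton, ← L.coe_jK Kb]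
    rfl
  · rw [← AlgHom.fieldRange_eq_map, IntermediateField.fieldRange_val]

theorem Lvl.jFieldK_le (L : Lvl) : jFieldK ≤ L.FKf Kb := by
  rw [jFieldK, IntermediateField.adjoin_simple_le_iff, ← L.coe_jK Kb]
  exact (L.jK Kb).2

namespace HPair

variable {L : Lvl} {p : ℕ} [NeZero p] (P : HPair L p)

theorem G'_le : P.L'.G ≤ L.G := by
  rw [P.G_eq]; exact inf_le_left

/-- The coset space `G / G'`. -/
abbrev Q : Type := L.G ⧸ P.L'.G.subgroupOf L.G

instance finite_Q : Finite P.Q := Subgroup.finite_quotient_of_finiteIndex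

instance fintype_Q : Fintype P.Q := Fintype.ofFinite _

open IntermediateField in
theorem finrank_alphaK_eq_relfinrank :
    (letI := algebraAlong (P.alphaK Kb); Module.finrank (L.FK Kb) (P.L'.FK Kb)) =
      relfinrank (L.FKf Kb) (P.L'.FKf Kb) := by
  letI := algebraAlong (P.alphaK Kb)
  rw [relfinrank_eq_finrank_of_le (P.FKf_le Kb)]
  refine LinearEquiv.finrank_eq
    { toFun := fun x => ⟨x.1, x.2⟩
      invFun := fun x => ⟨x.1, x.2⟩
      map_add' := fun _ _ => rfl
      map_smul' := fun _ _ => rfl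
      left_inv := fun _ => rfl
      right_inv := fun _ => rfl }

open IntermediateField in
theorem finrank_alphaK_mul :
    (letI := algebraAlong (P.alphaK Kb); Module.finrank (L.FK Kb) (P.L'.FK Kb)) *
      Nat.card L.X = Nat.card P.L'.X := by
  rw [finrank_alphaK_eq_relfinrank, ← L.relfinrank_jFieldK, ← P.L'.relfinrank_jFieldK, mul_comm]
  exact relfinrank_mul_relfinrank L.jFieldK_le (P.FKf_le Kb)

theorem card_Q_mul : Nat.card P.Q * Nat.card L.X = Nat.card P.L'.X :=
  Subgroup.relIndex_mul_index P.G'_le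

theorem finrank_alphaK :
    (letI := algebraAlong (P.alphaK Kb); Module.finrank (L.FK Kb) (P.L'.FK Kb)) =
      Nat.card P.Q := by
  have : Finite L.X := Subgroup.finite_quotient_of_finiteIndex
  have h0 : Nat.card L.X ≠ 0 := Nat.card_pos.ne'
  exact Nat.eq_of_mul_eq_mul_right (Nat.pos_of_ne_zero h0)
    (P.finrank_alphaK_mul.trans P.card_Q_mul.symm)

/-! ### The embeddings -/

/-- `MerBar` as an algebra over the function field of level `L`. -/
abbrev algMerBarK (L : Lvl) : Algebra (L.FK Kb) MerBar :=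
  ((algebraMap Mer MerBar).comp (L.thetaK iotaK.toRingHom)).toAlgebra

/-- The embedding of `P.L'.FK Kb` over `L.FK Kb` attached to `g ∈ L.G`. -/
def embOfK (g : L.G) :
    letI := algebraAlong (P.alphaK Kb)
    letI := algMerBarK L
    P.L'.FK Kb →ₐ[L.FK Kb] MerBar :=
  letI := algebraAlong (P.alphaK Kb)
  letI := algMerBarK L
  { (algebraMap Mer MerBar).comp (P.L'.sigma0K iotaK.toRingHom g) with
    commutes' := fun a => by
      show algebraMap Mer MerBar (P.L'.sigma0K iotaK.toRingHom g (P.alphaK Kb a)) =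
        algebraMap Mer MerBar (L.thetaK iotaK.toRingHom a)
      rw [Lvl.sigma0K_apply, thetaK_alphaK, L.actMer_thetaK _ g.2] }

theorem embOfK_apply (g : L.G) (y : P.L'.FK Kb) :
    P.embOfK g y = algebraMap Mer MerBar (actMer g (P.L'.thetaK iotaK.toRingHom y)) := rfl

theorem embOfK_out_injective :
    Function.Injective (fun q : P.Q => P.embOfK q.out) := by
  intro q q' h
  have h1 : P.L'.sigma0K iotaK.toRingHom (q.out : SL(2, ℤ)) =
      P.L'.sigma0K iotaK.toRingHom (q'.out : SL(2, ℤ)) := by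
    ext y
    apply (algebraMap Mer MerBar).injective
    exact DFunLike.congr_fun h y
  rw [← Lvl.sigmaK_mk, ← Lvl.sigmaK_mk] at h1
  have h2 := P.L'.sigmaK_injective iotaK.toRingHom h1
  rw [QuotientGroup.eq] at h2
  rw [← q.out_eq', ← q'.out_eq']
  exact QuotientGroup.eq.mpr (Subgroup.mem_subgroupOf.mpr h2)

theorem finite_alphaK :
    letI := algebraAlong (P.alphaK Kb)
    Module.Finite (L.FK Kb) (P.L'.FK Kb) := by
  letI := algebraAlong (P.alphaK Kb)
  apply Module.finite_of_finrank_pos
  rw [finrank_alphaK]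
  exact Nat.card_pos

/-- **The norm is the product over the cosets.** -/
theorem thetaK_norm (y : P.L'.FK Kb) :
    L.thetaK iotaK.toRingHom (normAlong (P.alphaK Kb) y) =
      ∏ q : P.Q, actMer (q.out : SL(2, ℤ)) (P.L'.thetaK iotaK.toRingHom y) := by
  letI := algebraAlong (P.alphaK Kb)
  letI := algMerBarK L
  haveI := P.finite_alphaK
  apply (algebraMap Mer MerBar).injective
  have h1 := Algebra.norm_eq_prod_embeddings (L.FK Kb) MerBar y
  have hbij : Function.Bijective (fun q : P.Q => P.embOfK q.out) := by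
    rw [Fintype.bijective_iff_injective_and_card]
    refine ⟨P.embOfK_out_injective, ?_⟩
    rw [AlgHom.card, finrank_alphaK, Nat.card_eq_fintype_card]
  rw [map_prod]
  refine h1.trans ?_
  exact (hbij.prod_comp (fun σ : P.L'.FK Kb →ₐ[L.FK Kb] MerBar => σ y)).symm

end HPair

end

end Fermat.Agent.S48.ModL
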