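import Fermat.Agent.S48.ModL.AD.Degree
import Fermat.Agent.S48.ModL.Sup.Defs
import Fermat.Agent.GAL.HeckeEquiv.MerGL
import Fermat.Agent.GAL.HeckeGalois

/-!
# S48 / MODL / HP : Hecke pairs

`P : HPair L p` is a level `P.L'` with group `L.G ⊓ Γ₀(p)` whose generators are the generators of
`L` and their images under `q ↦ q ^ p`.

* `P.alphaK K`, `P.betaK K` : the two degeneracy maps `L.FK K →ₐ[K] P.L'.FK K`;
* `thetaK_alphaK`, `thetaK_betaK` : their analytic description;
* the inputs of `Pic0.correspondence` over `Qbar`, the raw Hecke operator `P.hecke = α_* β^*`;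
* `P.hecke_smul` : it commutes with Galois.
-/

set_option autoImplicit false
set_option linter.style.haveILetI false
set_option linter.unusedSectionVars false

open UpperHalfPlane hiding I
open Function ModularCurve CongruenceSubgroup ModularForm AlgebraicCurve
open scoped Manifold MatrixGroups
open Fermat.Agent.S24 Fermat.Agent.GAL Fermat.Agent.GAL.HeckeEquiv

namespace Fermat.Agent.S48.ModL

noncomputable section

/-- A Hecke pair. -/
structure HPair (L : Lvl) (p : ℕ) [NeZero p] where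
  /-- the level with group `L.G ⊓ Γ₀(p)` -/
  L' : Lvl
  G_eq : L'.G = L.G ⊓ Gamma0 p
  /-- the old generators -/
  a : L.ι → L'.ι
  /-- the new generators -/
  b : L.ι → L'.ι
  gen_a : ∀ i, L'.gen (a i) = L.gen i
  gen_b : ∀ i, L'.gen (b i) = qExpand ℚ p (L.gen i)
  hol_a : ∀ i, L'.hol (a i) = L.hol i
  hol_b : ∀ i, L'.hol (b i) =
    compGL (heckeDiagMatrix p) (det_heckeDiagMatrix_pos p) (L.hol i)
  cover : ∀ j, (∃ i, j = a i) ∨ ∃ i, j = b i

theorem laurentBaseChange_mono_hp (K : Type*) [Field K] [Algebra ℚ K]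
    {F₀ F₁ : IntermediateField ℚ (LaurentSeries ℚ)}
    (h : F₀ ≤ F₁) : laurentBaseChange K F₀ ≤ laurentBaseChange K F₁ := by
  rw [laurentBaseChange, IntermediateField.adjoin_le_iff]
  rintro _ ⟨y, hy, rfl⟩
  exact coeffEmb_mem_laurentBaseChange K (h hy)

theorem coeffEmb_qExpand_hp (K : Type*) [Field K] [Algebra ℚ K] (n : ℕ) [NeZero n]
    (x : LaurentSeries ℚ) : coeffEmb K (qExpand ℚ n x) = qExpand K n (coeffEmb K x) :=
  HeckeGalois.coeffMap_qExpand _ n x

namespace HPair

variable {L : Lvl} {p : ℕ} [NeZero p] (P : HPair L p)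

theorem F₀_le : L.F₀ ≤ P.L'.F₀ := by
  rw [Lvl.F₀, IntermediateField.adjoin_le_iff]
  rintro _ ⟨i, rfl⟩
  rw [← P.gen_a i]
  exact P.L'.gen_mem _

section Field

variable (K : Type*) [Field K] [Algebra ℚ K]

theorem FKf_le : L.FKf K ≤ P.L'.FKf K := laurentBaseChange_mono_hp K P.F₀_le

theorem qExpand_mem {x : LaurentSeries K} (hx : x ∈ L.FKf K) : qExpand K p x ∈ P.L'.FKf K := by
  refine L.fk_le ((P.L'.FKf K).toSubfield.comap (qExpand K p)) ?_ ?_ x hx
  · intro c
    show qExpand K p (algebraMap K (LaurentSeries K) c) ∈ P.L'.FKf K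
    rw [algebraMap_laurentSeries_eq_single, qExpand_single, mul_zero,
      ← algebraMap_laurentSeries_eq_single]
    exact (P.L'.FKf K).algebraMap_mem _
  · intro i
    show qExpand K p (coeffEmb K (L.gen i)) ∈ P.L'.FKf K
    rw [← coeffEmb_qExpand_hp, ← P.gen_b i]
    exact coeffEmb_mem_laurentBaseChange K (P.L'.gen_mem _)

/-- `α` : the inclusion. -/
def alphaK : L.FK K →ₐ[K] P.L'.FK K := IntermediateField.inclusion (P.FKf_le K)

@[simp] theorem coe_alphaK (x : L.FK K) :
    (P.alphaK K x : LaurentSeries K) = (x : LaurentSeries K) :=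
  IntermediateField.coe_inclusion _ x

/-- `β` : `q ↦ q ^ p`. -/
def betaK : L.FK K →ₐ[K] P.L'.FK K where
  toFun x := ⟨qExpand K p (x : LaurentSeries K), P.qExpand_mem K x.2⟩
  map_one' := Subtype.ext (map_one (qExpand K p))
  map_mul' _ _ := Subtype.ext (map_mul (qExpand K p) _ _)
  map_zero' := Subtype.ext (map_zero (qExpand K p))
  map_add' _ _ := Subtype.ext (map_add (qExpand K p) _ _)
  commutes' c := Subtype.ext <| by
    show qExpand K p (algebraMap K (LaurentSeries K) c) = algebraMap K (LaurentSeries K) c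
    rw [algebraMap_laurentSeries_eq_single, qExpand_single, mul_zero]

@[simp] theorem coe_betaK (x : L.FK K) :
    (P.betaK K x : LaurentSeries K) = qExpand K p (x : LaurentSeries K) := rfl

theorem alphaK_genK (i : L.ι) : P.alphaK K (L.genK K i) = P.L'.genK K (P.a i) :=
  Subtype.ext (by rw [coe_alphaK, Lvl.coe_genK, Lvl.coe_genK, P.gen_a])

theorem betaK_genK (i : L.ι) : P.betaK K (L.genK K i) = P.L'.genK K (P.b i) :=
  Subtype.ext (by rw [coe_betaK, Lvl.coe_genK, Lvl.coe_genK, P.gen_b, coeffEmb_qExpand_hp])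

variable {K} (ι : K →+* ℂ)

theorem thetaK_alphaK (x : L.FK K) : P.L'.thetaK ι (P.alphaK K x) = L.thetaK ι x := by
  have : (P.L'.thetaK ι).comp (P.alphaK K).toRingHom = L.thetaK ι := by
    apply L.ringHom_ext_fk
    · intro c
      rw [RingHom.comp_apply, AlgHom.toRingHom_eq_coe, RingHom.coe_coe, AlgHom.commutes,
        Lvl.thetaK_algebraMap, Lvl.thetaK_algebraMap]
    · intro i
      rw [RingHom.comp_apply, AlgHom.toRingHom_eq_coe, RingHom.coe_coe, alphaK_genK,
        Lvl.thetaK_genK, Lvl.thetaK_genK, P.hol_a]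
  exact congrArg (fun φ : L.FK K →+* Mer => φ x) this

theorem thetaK_betaK (x : L.FK K) : P.L'.thetaK ι (P.betaK K x) =
    merGL (heckeDiagMatrix p) (det_heckeDiagMatrix_pos p) (L.thetaK ι x) := by
  have : (P.L'.thetaK ι).comp (P.betaK K).toRingHom =
      (merGL (heckeDiagMatrix p) (det_heckeDiagMatrix_pos p)).toRingHom.comp (L.thetaK ι) := by
    apply L.ringHom_ext_fk
    · intro c
      rw [RingHom.comp_apply, RingHom.comp_apply, AlgHom.toRingHom_eq_coe, RingHom.coe_coe,
        AlgHom.commutes, AlgHom.toRingHom_eq_coe, RingHom.coe_coe,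
        Lvl.thetaK_algebraMap, Lvl.thetaK_algebraMap, AlgHom.commutes]
    · intro i
      rw [RingHom.comp_apply, RingHom.comp_apply, AlgHom.toRingHom_eq_coe, RingHom.coe_coe,
        AlgHom.toRingHom_eq_coe, RingHom.coe_coe, betaK_genK,
        Lvl.thetaK_genK, Lvl.thetaK_genK, merGL_algebraMap, P.hol_b]
  exact congrArg (fun φ : L.FK K →+* Mer => φ x) this

end Field

end HPair

/-! ### Inputs of the correspondence over `Qbar` -/

instance hasPrincipalDivisors_FK (L : Lvl) : HasPrincipalDivisors Kb (L.FK Kb) :=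
  (L.isFiniteParam_jK iotaK.toRingHom).hasPrincipalDivisors

namespace HPair

variable {L : Lvl} {p : ℕ} [NeZero p] (P : HPair L p)

theorem finiteAlong_alphaK : FiniteAlong Kb (P.alphaK Kb) :=
  FFExt.finiteAlong _ (L.isFiniteParam_jK iotaK.toRingHom)
    (P.L'.isFiniteParam_jK iotaK.toRingHom)

theorem finiteAlong_betaK : FiniteAlong Kb (P.betaK Kb) :=
  FFExt.finiteAlong _ (L.isFiniteParam_jK iotaK.toRingHom)
    (P.L'.isFiniteParam_jK iotaK.toRingHom)

theorem integral_alphaK : (P.alphaK Kb).toRingHom.IsIntegral :=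
  FFExt.isIntegralAlong _ P.finiteAlong_alphaK

theorem integral_betaK : (P.betaK Kb).toRingHom.IsIntegral :=
  FFExt.isIntegralAlong _ P.finiteAlong_betaK

theorem fundamentalIdentity_betaK : FundamentalIdentityAlong Kb (P.betaK Kb) P.integral_betaK :=
  FFExt.fundamentalIdentityAlong _ _ P.finiteAlong_betaK (L.isFiniteParam_jK iotaK.toRingHom)

theorem normFormula_alphaK : NormFormulaAlong Kb (P.alphaK Kb) P.finiteAlong_alphaK :=
  FFExt.normFormulaAlong _ _ (L.isFiniteParam_jK iotaK.toRingHom)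

/-- **The raw Hecke operator** `α_* β^*` on `L.Jac`. -/
def hecke : L.Jac →+ L.Jac :=
  Pic0.correspondence (P.betaK Kb) (P.alphaK Kb) P.integral_betaK P.integral_alphaK
    P.fundamentalIdentity_betaK P.finiteAlong_alphaK P.normFormula_alphaK

theorem compat_alphaK (σ : Kb ≃ₐ[ℚ] Kb) :
    FFSemi.Compat (P.alphaK Kb) (arithmeticGalois L.F₀ σ) (arithmeticGalois P.L'.F₀ σ) := by
  intro x
  apply Subtype.ext
  rw [coe_alphaK, coe_arithmeticGalois_smul, coe_arithmeticGalois_smul, coe_alphaK]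

theorem compat_betaK (σ : Kb ≃ₐ[ℚ] Kb) :
    FFSemi.Compat (P.betaK Kb) (arithmeticGalois L.F₀ σ) (arithmeticGalois P.L'.F₀ σ) := by
  intro x
  apply Subtype.ext
  rw [coe_betaK, coe_arithmeticGalois_smul, coe_arithmeticGalois_smul, coe_betaK,
    HeckeGalois.coeffMap_qExpand]

/-- **Galois commutes with the raw Hecke operator.** -/
theorem hecke_smul (σ : Kb ≃ₐ[ℚ] Kb) (x : L.Jac) : σ • P.hecke x = P.hecke (σ • x) := by
  rw [hecke, galois_smul_pic0_def, galois_smul_pic0_def]
  exact (FFSemi.pic0_correspondence_smul _ _ _ _ _ _ _ (L.isFiniteParam_jK iotaK.toRingHom)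
    (P.compat_betaK σ) (P.compat_alphaK σ) x).symm

end HPair

end

end Fermat.Agent.S48.ModL
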