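import Fermat.Agent.S48.ModL.HP.Pair
import Fermat.Agent.S48.ModL.HP.ConjY

/-!
# S48 / MODL / HP / PairY : the Hecke pair of `lvlY M` at a prime `p ∤ M` (helper72)
-/

set_option autoImplicit false

open CongruenceSubgroup ModularForm
open scoped MatrixGroups

namespace Fermat.Agent.S48.ModL.HP

noncomputable section

/-- the Hecke pair attached to `withP`. -/
def pairOf (L : Lvl) (p : ℕ) [NeZero p] (hc : PConj L p) : HPair L p where
  L' := withP L p hc
  G_eq := rfl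
  a := Sum.inl
  b := Sum.inr
  gen_a _ := rfl
  gen_b _ := rfl
  hol_a _ := rfl
  hol_b _ := rfl
  cover := by
    rintro (i | i)
    · exact Or.inl ⟨i, rfl⟩
    · exact Or.inr ⟨i, rfl⟩

/-- **the Hecke pair of `lvlY M` at `p ∤ M`.** -/
def pairY (M : ℕ) [NeZero M] (hM : 2 < M) (p : ℕ) [NeZero p] (hp : p.Prime) (hpM : ¬ p ∣ M) :
    HPair (Y.lvlY M hM) p :=
  pairOf (Y.lvlY M hM) p (pconj_lvlY M hM hp hpM)

open Classical in
/-- **the raw Hecke operators on the Jacobian of `Y`** (`0` unless `p` is a prime `∤ M`). -/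
def TY (M : ℕ) [NeZero M] (hM : 2 < M) (p : ℕ) : (Y.lvlY M hM).Jac →+ (Y.lvlY M hM).Jac :=
  if h : p.Prime ∧ ¬ p ∣ M then
    haveI : NeZero p := ⟨h.1.ne_zero⟩
    (pairY M hM p h.1 h.2).hecke
  else 0

theorem TY_eq (M : ℕ) [NeZero M] (hM : 2 < M) (p : ℕ) [NeZero p] (hp : p.Prime) (hpM : ¬ p ∣ M) :
    TY M hM p = (pairY M hM p hp hpM).hecke := by
  rw [TY, dif_pos ⟨hp, hpM⟩]

end

end Fermat.Agent.S48.ModL.HP
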