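import Fermat.Agent.S48.ModL.Lvl
import Fermat.Agent.S24.HolPerMore
import Fermat.Agent.S24.QExp
import Fermat.Agent.GAL.HeckeEquiv.MerGL

/-!
# S48 / MODL / HP / Scal  (WP [HP-SCAL]): the substitution `τ ↦ p τ` on `HolPer 1`, `MerPer 1`, `Hol`, `Mer`

Definitions complete (helper72); pattern for the proofs: `shiftHolPer`, `shiftMer`, `toLaurent_shiftMer`,
`toMer_shiftMer` in `Fermat/Agent/S24/HolPerMore.lean`, and
`S24.ofPowerSeries_qExpansion_comp_scal` (`Fermat/Agent/S24/QExp.lean`).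
-/

set_option autoImplicit false

open UpperHalfPlane hiding I
open Function ModularCurve CongruenceSubgroup ModularForm
open scoped Manifold MatrixGroups
open Fermat.Agent.S24 Fermat.Agent.GAL.HeckeEquiv

namespace Fermat.Agent.S48.ModL.HP

noncomputable section

variable (p : ℕ) [NeZero p]

theorem comp_scal_mem_HolPer {f : ℍ → ℂ} (hf : f ∈ HolPer 1) : f ∘ scal p ∈ HolPer 1 := by
  rw [mem_HolPer] at hf ⊢
  obtain ⟨h1, h2, h3⟩ := hf
  refine ⟨mdiff_comp_scal p h1, ?_, isBoundedAtImInfty_comp_scal p h3⟩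
  have e : (((1 : ℕ) : ℝ) : ℂ) = 1 := by norm_num
  rw [e] at h2 ⊢
  exact periodic_comp_scal p h2

/-- `f ↦ f (p τ)` on `HolPer 1`. -/
def scalHolPer : HolPer 1 →ₐ[ℂ] HolPer 1 where
  toFun f := ⟨(f : ℍ → ℂ) ∘ scal p, comp_scal_mem_HolPer p f.2⟩
  map_one' := rfl
  map_mul' _ _ := rfl
  map_zero' := rfl
  map_add' _ _ := rfl
  commutes' _ := rfl

@[simp] theorem scalHolPer_apply (f : HolPer 1) (τ : ℍ) :
    (scalHolPer p f : ℍ → ℂ) τ = (f : ℍ → ℂ) (scal p τ) := rfl

theorem scalHolPer_injective : Injective (scalHolPer p) := by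
  intro a b hab
  apply Subtype.ext
  funext τ
  have hp : (0 : ℝ) < p := by exact_mod_cast Nat.pos_of_ne_zero (NeZero.ne p)
  have hpc : (p : ℂ) ≠ 0 := by exact_mod_cast NeZero.ne p
  have him : 0 < ((τ : ℂ) / (p : ℂ)).im := by
    rw [Complex.div_natCast_im]
    exact div_pos τ.im_pos hp
  have h := congrFun (congrArg Subtype.val hab) ⟨(τ : ℂ) / (p : ℂ), him⟩
  have e : scal p ⟨(τ : ℂ) / (p : ℂ), him⟩ = τ := by
    apply UpperHalfPlane.ext
    rw [coe_scal]
    show (p : ℂ) * ((τ : ℂ) / (p : ℂ)) = τ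
    field_simp
  have h' : (a : ℍ → ℂ) (scal p ⟨(τ : ℂ) / (p : ℂ), him⟩) =
      (b : ℍ → ℂ) (scal p ⟨(τ : ℂ) / (p : ℂ), him⟩) := h
  rwa [e] at h'

/-- `u ↦ u (p τ)` on `MerPer 1`. -/
def scalPer : MerPer 1 →+* MerPer 1 :=
  IsFractionRing.map (A := HolPer 1) (B := HolPer 1) (K := MerPer 1) (L := MerPer 1)
    (j := (scalHolPer p).toRingHom) (scalHolPer_injective p)

theorem scalPer_algebraMap (f : HolPer 1) :
    scalPer p (algebraMap (HolPer 1) (MerPer 1) f) =
      algebraMap (HolPer 1) (MerPer 1) (scalHolPer p f) :=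
  IsLocalization.map_eq (S := MerPer 1) (Q := MerPer 1) (g := (scalHolPer p).toRingHom)
    (nonZeroDivisors_le_comap_nonZeroDivisors_of_injective _ (scalHolPer_injective p)) f

theorem toLaurent_scalPer (u : MerPer 1) :
    toLaurent 1 (scalPer p u) = qExpand ℂ p (toLaurent 1 u) := by
  obtain ⟨a, b, -, rfl⟩ := IsFractionRing.div_surjective (A := HolPer 1) u
  have key : ∀ f : HolPer 1, toLaurent 1 (algebraMap (HolPer 1) (MerPer 1) (scalHolPer p f)) =
      qExpand ℂ p (toLaurent 1 (algebraMap (HolPer 1) (MerPer 1) f)) := by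
    intro f
    rw [toLaurent_algebraMap, toLaurent_algebraMap]
    have e : (((1 : ℕ) : ℝ) : ℂ) = 1 := by norm_num
    have h2 := f.2.2.1
    rw [e] at h2
    have := ofPowerSeries_qExpansion_comp_scal p h2 f.2.1 f.2.2.2
    rw [Nat.cast_one]
    exact this
  rw [map_div₀, map_div₀, map_div₀, map_div₀, scalPer_algebraMap, scalPer_algebraMap, key, key]

/-- `f ↦ f (p τ)` on `Hol`. -/
def scalHol : Hol →ₐ[ℂ] Hol := compGL (heckeDiagMatrix p) (det_heckeDiagMatrix_pos p)

theorem scalHol_apply (f : Hol) (τ : ℍ) : (scalHol p f : ℍ → ℂ) τ = (f : ℍ → ℂ) (scal p τ) := by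
  have e : scal p τ = heckeDiagMatrix p • τ := by
    apply UpperHalfPlane.ext
    rw [coe_scal, coe_heckeDiagMatrix_smul (NeZero.ne p)]
  rw [e]
  rfl

/-- `u ↦ u (p τ)` on `Mer`. -/
def scalMer : Mer →ₐ[ℂ] Mer := merGL (heckeDiagMatrix p) (det_heckeDiagMatrix_pos p)

theorem scalMer_algebraMap (f : Hol) :
    scalMer p (algebraMap Hol Mer f) = algebraMap Hol Mer (scalHol p f) :=
  merGL_algebraMap _ _ f

theorem inclHol_scalHolPer (f : HolPer 1) :
    inclHol 1 (scalHolPer p f) = scalHol p (inclHol 1 f) := by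
  apply Subtype.ext
  funext τ
  rw [scalHol_apply]
  rfl

theorem toMer_scalPer (u : MerPer 1) : toMer 1 (scalPer p u) = scalMer p (toMer 1 u) := by
  obtain ⟨a, b, -, rfl⟩ := IsFractionRing.div_surjective (A := HolPer 1) u
  rw [map_div₀, map_div₀, map_div₀, map_div₀, scalPer_algebraMap, scalPer_algebraMap,
    toMer_algebraMap, toMer_algebraMap, toMer_algebraMap, toMer_algebraMap, scalMer_algebraMap,
    scalMer_algebraMap, inclHol_scalHolPer, inclHol_scalHolPer]

end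

end Fermat.Agent.S48.ModL.HP
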