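import Fermat.Agent.S48.ModL.HP.Scal
import Fermat.Agent.S48.ModL.AD.InvRat
import Fermat.Agent.S24.Hermite
import Fermat.Agent.S24.Conj
import Fermat.Prelude.Thm_ModularCurve_coeffMap_qExpand

/-!
# S48 / MODL / HP / WithP  (WP [HP-WITHP]): the level `L.withP p` (`G ∩ Γ₀(p)`, generators `gen i`, `gen i (q^p)`)

The definition `withP` is complete (helper72); the WP consists of the 6 lemmas with `sorry`.

* `Gamma_mul_le`: `Γ(h p) ≤ Γ(h) ≤ G`, `Γ(h p) ≤ Γ(p) ≤ Γ₀(p)`.
* `toLaurent_per_scal`: `toLaurent_scalPer`, `L.toLaurent_per`, and `coeffEmb ℂ (qExpand ℚ p x) = qExpand ℂ p (coeffEmb ℂ x)`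
  (compare coefficients: `qExpand_coeff_mul`, `qExpand_coeff_of_not_dvd`, as in the private lemma `coeffMap_qExpand'` of
  `Fermat/Prelude/Def_ModularCurve_HeckeOperator.lean`; maybe already public somewhere in S24/GAL/RED: grep `coeffMap_qExpand`).
* `growth_scal`: Hermite normal form: `diag(p,1) g⁻¹ = g'' [[a,b],[0,e]]` with `g'' ∈ SL(2,ℤ)`, `a e = p` (`S24/Hermite.lean`,
  used in `S24.exists_jd_smul_eq`, `S24/Conj.lean`), so `actHol g (scalHol p f) = compTri a b e (actHol g''⁻¹ f)`; `L.growth i g''⁻¹`; and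
  `ModGrowth F → ModGrowth (compTri a b e F)`: models `S24.isBoundedAtImInfty_pow_discriminant_mul_jd`/`modGrowth_jd_smul`
  (`S24/Growth.lean`) and `Y.modGrowth_actHol_holZ` (`S48/ModL/Y/Act.lean`, helper71).
* `inv_scal`: `hc.conj γ⁻¹`, `L.inv`.
* `sep_scal`: `L.sep`; for `Γ₀(p)`: `L.hol L.i₀ = jdHol 1` (`hol_i₀`: from `gen_i₀`, `toLaurent_per`, `toMer_per`, `toLaurent_jdPer`,
  `toMer_jdPer`, injectivity of `toLaurent 1`), `scalHol p (jdHol 1) = jdHol p`, `S24.mem_Gamma0_of_jd_smul_eq`.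
-/

set_option autoImplicit false

open UpperHalfPlane hiding I
open Function ModularCurve CongruenceSubgroup ModularForm
open scoped Manifold MatrixGroups
open Fermat.Agent.S24 Fermat.Agent.GAL.HeckeEquiv
open Matrix.SpecialLinearGroup (mapGL)

namespace Fermat.Agent.S48.ModL.HP

noncomputable section

/-- `diag(p,1)` conjugates `G ∩ Γ₀(p)` into `G`. -/
structure PConj (L : Lvl) (p : ℕ) : Prop where
  conj : ∀ g ∈ L.G, g ∈ Gamma0 p → ∃ g' ∈ L.G,
    heckeDiagMatrix p * mapGL ℝ g = mapGL ℝ g' * heckeDiagMatrix p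

theorem Gamma_le_of_dvd_hp {a b : ℕ} (h : a ∣ b) :
    CongruenceSubgroup.Gamma b ≤ CongruenceSubgroup.Gamma a := by
  intro g hg
  rw [Gamma_mem] at hg ⊢
  obtain ⟨h1, h2, h3, h4⟩ := hg
  refine ⟨?_, ?_, ?_, ?_⟩
  · have := congrArg (ZMod.castHom h (ZMod a)) h1
    rw [map_intCast, map_one] at this
    exact this
  · have := congrArg (ZMod.castHom h (ZMod a)) h2
    rw [map_intCast, map_zero] at this
    exact this
  · have := congrArg (ZMod.castHom h (ZMod a)) h3
    rw [map_intCast, map_zero] at this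
    exact this
  · have := congrArg (ZMod.castHom h (ZMod a)) h4
    rw [map_intCast, map_one] at this
    exact this

local notation "𝕢" => Function.Periodic.qParam
local notation "Δ" => ModularForm.discriminant

open Filter Topology in
/-- moderate growth is preserved by `τ ↦ (a τ + b) / e`. -/
theorem modGrowth_compTri {F : ℍ → ℂ} (hF : ModGrowth F) {a b e : ℝ} (hae : 0 < a * e) :
    ModGrowth (fun τ => F (upperTriangularGL a b e hae.ne' • τ)) := by
  obtain ⟨M, hM⟩ := hF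
  obtain ⟨M', hM'⟩ := exists_nat_ge ((M : ℝ) * (a / e))
  refine ⟨M', ?_⟩
  have hT := tendsto_upperTriangularGL_smul (b := b) hae
  have h1 : IsBoundedAtImInfty (fun τ : ℍ => (Δ τ / 𝕢 1 (τ : ℂ)) ^ M') :=
    (tendsto_discriminant_div_q.pow M').isBigO_one ℝ
  have hinv : Tendsto (fun τ : ℍ => 𝕢 1 (τ : ℂ) / Δ τ) atImInfty (𝓝 1) := by
    have := tendsto_discriminant_div_q.inv₀ one_ne_zero
    rw [inv_one] at this
    exact this.congr fun τ => by rw [inv_div]
  have h2 : IsBoundedAtImInfty (fun τ : ℍ =>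
      (𝕢 1 ((upperTriangularGL a b e hae.ne' • τ : ℍ) : ℂ) /
        Δ (upperTriangularGL a b e hae.ne' • τ)) ^ M) :=
    ((hinv.comp hT).pow M).isBigO_one ℝ
  have h3 : IsBoundedAtImInfty (fun τ : ℍ => 𝕢 1 (τ : ℂ) ^ M' /
      𝕢 1 ((upperTriangularGL a b e hae.ne' • τ : ℍ) : ℂ) ^ M) := by
    refine Asymptotics.IsBigO.of_bound 1 (Eventually.of_forall fun τ => ?_)
    rw [norm_div, norm_pow, norm_pow, norm_qParam_coe, norm_qParam_coe,
      im_upperTriangularGL_smul hae, ← Real.exp_nat_mul, ← Real.exp_nat_mul, ← Real.exp_sub]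
    simp only [Pi.one_apply, norm_one, mul_one]
    rw [Real.exp_le_one_iff]
    have him := τ.im_pos
    have : 0 ≤ ((M' : ℝ) - M * (a / e)) * τ.im := mul_nonneg (sub_nonneg.mpr hM') him.le
    nlinarith [Real.pi_pos]
  have h4 : IsBoundedAtImInfty (fun τ : ℍ => Δ (upperTriangularGL a b e hae.ne' • τ) ^ M *
      F (upperTriangularGL a b e hae.ne' • τ)) := hM.comp_tendsto hT
  have := ((h1.mul h2).mul h3).mul h4
  refine this.congr' ?_ (EventuallyEq.refl _ _)
  refine Eventually.of_forall fun τ => ?_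
  have hq : 𝕢 1 (τ : ℂ) ≠ 0 := by simp [Function.Periodic.qParam]
  have hq' : 𝕢 1 ((upperTriangularGL a b e hae.ne' • τ : ℍ) : ℂ) ≠ 0 := by
    simp [Function.Periodic.qParam]
  have hΔ : Δ (upperTriangularGL a b e hae.ne' • τ) ≠ 0 := discriminant_ne_zero _
  simp only [Pi.mul_apply]
  rw [div_pow, div_pow]
  field_simp

variable (L : Lvl) (p : ℕ) [NeZero p]

theorem Gamma_mul_le : CongruenceSubgroup.Gamma (L.h * p) ≤ L.G ⊓ Gamma0 p := by
  refine le_inf ((Gamma_le_of_dvd_hp (Dvd.intro _ rfl)).trans L.Gamma_le) ?_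
  intro g hg
  have h1 := Gamma_le_of_dvd_hp (Dvd.intro_left _ rfl : p ∣ L.h * p) hg
  rw [Gamma_mem] at h1
  rw [Gamma0_mem]
  exact h1.2.2.1

theorem hol_i₀ : L.hol L.i₀ = jdHol 1 := InvRat.hol_i₀ L

theorem toLaurent_per_scal (i : L.ι) :
    toLaurent 1 (scalPer p (L.per i)) = coeffEmb ℂ (qExpand ℚ p (L.gen i)) := by
  rw [toLaurent_scalPer, L.toLaurent_per]
  exact (ModularCurve.coeffMap_qExpand (algebraMap ℚ ℂ) p (L.gen i)).symm

theorem toMer_per_scal (i : L.ι) :
    toMer 1 (scalPer p (L.per i)) = algebraMap Hol Mer (scalHol p (L.hol i)) := by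
  rw [toMer_scalPer, L.toMer_per, scalMer_algebraMap]

theorem growth_scal (i : L.ι) (g : SL(2, ℤ)) :
    ModGrowth (actHol g (scalHol p (L.hol i)) : ℍ → ℂ) := by
  obtain ⟨γ', a, b, e, ha, he, -, -, h⟩ := exists_hermite_smul p g⁻¹
  have har : (0 : ℝ) < a := by exact_mod_cast ha
  have her : (0 : ℝ) < e := by exact_mod_cast he
  have hpos : (0 : ℝ) < (a : ℝ) * e := mul_pos har her
  have h1 := modGrowth_compTri (L.growth i γ'⁻¹) (b := b) hpos
  refine (congrArg ModGrowth ?_).mp h1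
  funext τ
  rw [actHol_apply, actHol_apply, scalHol_apply, scal_eq_smul, h hpos.ne' τ, inv_inv]

variable {L p}

theorem inv_scal (hc : PConj L p) (i : L.ι) (γ : SL(2, ℤ)) (hγ : γ ∈ L.G ⊓ Gamma0 p) :
    actHol γ (scalHol p (L.hol i)) = scalHol p (L.hol i) := by
  obtain ⟨g', hg', hcomm⟩ := hc.conj γ⁻¹ (inv_mem hγ.1) (inv_mem hγ.2)
  apply Subtype.ext
  funext τ
  rw [actHol_apply, scalHol_apply, scalHol_apply, scal_eq_smul, scal_eq_smul,
    smul_eq_mapGL_smul, ← mul_smul, hcomm, mul_smul, ← smul_eq_mapGL_smul]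
  have h1 := congrFun (congrArg Subtype.val (L.inv i g'⁻¹ (inv_mem hg'))) (heckeDiagMatrix p • τ)
  rw [actHol_apply, inv_inv] at h1
  exact h1

theorem sep_scal (g : SL(2, ℤ)) (h1 : ∀ i, actHol g (L.hol i) = L.hol i)
    (h2 : ∀ i, actHol g (scalHol p (L.hol i)) = scalHol p (L.hol i)) : g ∈ L.G ⊓ Gamma0 p := by
  refine ⟨L.sep g h1, ?_⟩
  have hg' : g⁻¹ ∈ Gamma0 p := by
    apply mem_Gamma0_of_jd_smul_eq
    intro τ
    have h3 := congrFun (congrArg Subtype.val (h2 L.i₀)) τ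
    rw [actHol_apply, scalHol_apply, scalHol_apply, hol_i₀, coe_jdHol, jd, jd, scal_one,
      scal_one] at h3
    exact h3
  simpa using inv_mem hg'

variable (L p)

/-- **the level `G ∩ Γ₀(p)`**. -/
def withP (hc : PConj L p) : Lvl where
  G := L.G ⊓ Gamma0 p
  h := L.h * p
  h_ne := mul_ne_zero L.h_ne (NeZero.ne p)
  Gamma_le := Gamma_mul_le L p
  neg_one_mem := ⟨L.neg_one_mem, show (-1 : SL(2, ℤ)) ∈ Gamma0 p by rw [Gamma0_mem]; simp⟩
  T_mem := ⟨L.T_mem, show ModularGroup.T ∈ Gamma0 p by rw [Gamma0_mem, ModularGroup.coe_T]; simp⟩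
  ι := L.ι ⊕ L.ι
  fin := inferInstance
  gen := Sum.elim L.gen (fun i => qExpand ℚ p (L.gen i))
  hol := Sum.elim L.hol (fun i => scalHol p (L.hol i))
  per := Sum.elim L.per (fun i => scalPer p (L.per i))
  toLaurent_per := by
    rintro (i | i)
    · exact L.toLaurent_per i
    · exact toLaurent_per_scal L p i
  toMer_per := by
    rintro (i | i)
    · exact L.toMer_per i
    · exact toMer_per_scal L p i
  growth := by
    rintro (i | i) g
    · exact L.growth i g
    · exact growth_scal L p i g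
  inv := by
    rintro (i | i) γ hγ
    · exact L.inv i γ hγ.1
    · exact inv_scal hc i γ hγ
  sep := fun g hg => sep_scal g (fun i => hg (Sum.inl i)) (fun i => hg (Sum.inr i))
  i₀ := Sum.inl L.i₀
  gen_i₀ := L.gen_i₀

variable (hc : PConj L p)

@[simp] theorem withP_G : (withP L p hc).G = L.G ⊓ Gamma0 p := rfl

theorem withP_gen_inl (i : L.ι) : (withP L p hc).gen (Sum.inl i) = L.gen i := rfl

theorem withP_gen_inr (i : L.ι) : (withP L p hc).gen (Sum.inr i) = qExpand ℚ p (L.gen i) := rfl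

theorem withP_hol_inl (i : L.ι) : (withP L p hc).hol (Sum.inl i) = L.hol i := rfl

theorem withP_hol_inr (i : L.ι) : (withP L p hc).hol (Sum.inr i) = scalHol p (L.hol i) := rfl

end

end Fermat.Agent.S48.ModL.HP
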